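/-
S15, block A, part A-RED, node SEP (architect helper226).  Integrality of `J' * y ^ (k * n)`.
Mathlib only.
-/
import Mathlib

set_option autoImplicit false

noncomputable section

namespace Fermat.Agent.S15.A.Red.Sep

open Polynomial

/-- If `J * y ^ k = u` with `y, u ∈ P` and `(J, J')` satisfies a modular equation of level `n`
then `J' * y ^ (k * n)` is integral over `P` (multiply the equation by `y ^ (k * n * (n + 1))`). -/
theorem isIntegral_mul_pow {F : Type*} [Field F] (P : Subring F) (n k : ℕ) (hn : 1 ≤ n)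
    (c : ℕ → ℕ → ℤ) {J J' y u : F} (hy : y ∈ P) (hu : u ∈ P) (h : J * y ^ k = u)
    (hE : J ^ (n + 1) + J' ^ (n + 1) + ∑ a ∈ Finset.range (n + 1), ∑ b ∈ Finset.range (n + 1),
      ((c a b : ℤ) : F) * J ^ a * J' ^ b = 0) : IsIntegral P (J' * y ^ (k * n)) := by
  set yP : P := ⟨y, hy⟩ with hyP
  set uP : P := ⟨u, hu⟩ with huP
  set r : P[X] := ∑ b ∈ Finset.range (n + 1),
    C (∑ a ∈ Finset.range (n + 1), ((c a b : ℤ) : P) * uP ^ a * yP ^ (k * n * (n + 1 - b) - k * a))
      * X ^ b + C (uP ^ (n + 1) * yP ^ (k * (n + 1) * (n - 1))) with hr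
  have hdeg : r.degree < ((n + 1 : ℕ) : WithBot ℕ) := by
    rw [← Polynomial.mem_degreeLT]
    refine Submodule.add_mem _ (Submodule.sum_mem _ fun b hb => ?_) ?_
    · rw [Polynomial.mem_degreeLT]
      exact lt_of_le_of_lt (degree_C_mul_X_pow_le _ _) (by exact_mod_cast Finset.mem_range.1 hb)
    · rw [Polynomial.mem_degreeLT]
      exact lt_of_le_of_lt degree_C_le (by exact_mod_cast Nat.succ_pos n)
  refine ⟨X ^ (n + 1) + r, monic_X_pow_add hdeg, ?_⟩
  have hyF : algebraMap P F yP = y := rfl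
  have huF : algebraMap P F uP = u := rfl
  rw [hr]
  simp only [eval₂_add, eval₂_pow, eval₂_X, eval₂_finsetSum, eval₂_mul, eval₂_C]
  simp only [map_sum, map_mul, map_pow, map_intCast, hyF, huF]
  have key : ∀ b ∈ Finset.range (n + 1),
      (∑ a ∈ Finset.range (n + 1), ((c a b : ℤ) : F) * u ^ a * y ^ (k * n * (n + 1 - b) - k * a)) *
        (J' * y ^ (k * n)) ^ b =
      y ^ (k * n * (n + 1)) * ∑ a ∈ Finset.range (n + 1), ((c a b : ℤ) : F) * J ^ a * J' ^ b := by
    intro b hb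
    rw [Finset.sum_mul, Finset.mul_sum]
    refine Finset.sum_congr rfl fun a ha => ?_
    have hb' : b ≤ n := Nat.lt_succ_iff.1 (Finset.mem_range.1 hb)
    have ha' : a ≤ n := Nat.lt_succ_iff.1 (Finset.mem_range.1 ha)
    have e1 : k * a + (k * n * (n + 1 - b) - k * a) + k * n * b = k * n * (n + 1) := by
      obtain ⟨d, rfl⟩ := Nat.exists_eq_add_of_le hb'
      have h1 : b + d + 1 - b = d + 1 := by omega
      rw [h1]
      have h2 : k * a ≤ k * (b + d) * (d + 1) := by
        calc k * a ≤ k * (b + d) := Nat.mul_le_mul_left k ha'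
          _ ≤ k * (b + d) * (d + 1) := Nat.le_mul_of_pos_right _ (Nat.succ_pos d)
      rw [Nat.add_sub_cancel' h2]
      ring
    rw [← e1, ← h, pow_add, pow_add]
    rw [mul_pow, mul_pow, ← pow_mul, ← pow_mul]
    ring
  rw [Finset.sum_congr rfl key, ← Finset.mul_sum]
  have e2 : k * (n + 1) + k * (n + 1) * (n - 1) = k * n * (n + 1) := by
    obtain ⟨m, rfl⟩ := Nat.exists_eq_add_of_le hn
    have : 1 + m - 1 = m := by omega
    rw [this]
    ring
  have e3 : u ^ (n + 1) * y ^ (k * (n + 1) * (n - 1)) = y ^ (k * n * (n + 1)) * J ^ (n + 1) := by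
    rw [← e2, ← h, pow_add, mul_pow, ← pow_mul]
    ring
  have e4 : (J' * y ^ (k * n)) ^ (n + 1) = y ^ (k * n * (n + 1)) * J' ^ (n + 1) := by
    rw [mul_pow, ← pow_mul]
    ring
  rw [e3, e4]
  rw [Finset.sum_comm] at hE
  calc _ = y ^ (k * n * (n + 1)) * (J ^ (n + 1) + J' ^ (n + 1) +
        ∑ b ∈ Finset.range (n + 1), ∑ a ∈ Finset.range (n + 1),
          ((c a b : ℤ) : F) * J ^ a * J' ^ b) := by ring
    _ = 0 := by rw [hE, mul_zero]

end Fermat.Agent.S15.A.Red.Sep

end
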