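/-
S15, block A, part A-RED, node SEP (architect helper226).  Pure valuation theory.

`O` a valuation ring of a field `F` with valuation `V`, `J * y ^ k = u` with `V u = 1`,
`b = J' * y ^ (k * n)`.  Then `V b * V J ^ n = V J'`; hence `V b = 1` if `V J' = V J ^ n` and
`V b < 1` if `V J' < V J`, `1 < V J`.
-/
import Fermat.Agent.S15.A.Defs

set_option autoImplicit false

noncomputable section

namespace Fermat.Agent.S15.A.Red.Sep

variable {F : Type*} [Field F] (O : ValuationSubring F)

theorem val_intCast_le_one (n : ℤ) : O.valuation (n : F) ≤ 1 := by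
  rw [ValuationSubring.valuation_le_one_iff]
  exact intCast_mem O n

/-- a natural number prime to the residue characteristic is a unit -/
theorem val_natCast_eq_one {ℓ n : ℕ} (hO : (ℓ : F) ∈ O.nonunits) (hcop : Nat.Coprime n ℓ) :
    O.valuation (n : F) = 1 := by
  have hℓ : O.valuation (ℓ : F) < 1 := (O.mem_nonunits_iff).1 hO
  refine le_antisymm (by have := val_intCast_le_one O (n : ℤ); rwa [Int.cast_natCast] at this) ?_
  by_contra hlt
  rw [not_le] at hlt
  have hb : (n : ℤ) * Nat.gcdA n ℓ + (ℓ : ℤ) * Nat.gcdB n ℓ = 1 := by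
    have := Nat.gcd_eq_gcd_ab n ℓ
    rw [hcop.gcd_eq_one] at this
    exact_mod_cast this.symm
  have hb' : (n : F) * (Nat.gcdA n ℓ : F) + (ℓ : F) * (Nat.gcdB n ℓ : F) = 1 := by
    exact_mod_cast congrArg (Int.cast : ℤ → F) hb
  have hmul : ∀ {a : F} (c : ℤ), O.valuation a < 1 → O.valuation (a * (c : F)) < 1 := by
    intro a c ha
    rw [map_mul]
    exact (mul_le_of_le_one_right' (val_intCast_le_one O c)).trans_lt ha
  have : O.valuation (1 : F) < 1 := by
    rw [← hb']
    exact Valuation.map_add_lt _ (hmul _ hlt) (hmul _ hℓ)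
  rw [map_one] at this
  exact lt_irrefl _ this

variable {O}

theorem val_add_eq_one {a b : F} (ha : O.valuation a = 1) (hb : O.valuation b < 1) :
    O.valuation (a + b) = 1 := by
  rw [Valuation.map_add_eq_of_lt_left _ (by rw [ha]; exact hb), ha]

variable {J J' y u : F} {k : ℕ}

theorem val_mul_pow (h : J * y ^ k = u) (hu : O.valuation u = 1) (n : ℕ) :
    O.valuation (J' * y ^ (k * n)) * O.valuation J ^ n = O.valuation J' := by
  have h1 : O.valuation J * O.valuation y ^ k = 1 := by rw [← map_pow, ← map_mul, h, hu]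
  rw [map_mul, map_pow, pow_mul, mul_assoc, ← mul_pow, mul_comm (O.valuation y ^ k), h1, one_pow,
    mul_one]

/-- near `∞` the function `b` is a unit -/
theorem val_eq_one_of_vInf (h : J * y ^ k = u) (hu : O.valuation u = 1) {n : ℕ} (hn : 1 ≤ n)
    (hnp : O.valuation J' = O.valuation J ^ n ∨ O.valuation J' ^ n = O.valuation J)
    (hI : VInf O J J') : O.valuation (J' * y ^ (k * n)) = 1 := by
  have h3 := val_mul_pow (J' := J') h hu n
  have hJ0 : O.valuation J ^ n ≠ 0 := pow_ne_zero _ (zero_lt_one.trans hI.1).ne'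
  rcases hnp with hnp | hnp
  · rw [hnp] at h3
    exact mul_right_cancel₀ hJ0 (h3.trans (one_mul _).symm)
  · exfalso
    have h1 : 1 < O.valuation J' := hI.1.trans hI.2
    have h2 : O.valuation J' ≤ O.valuation J' ^ n := by
      calc O.valuation J' = O.valuation J' ^ 1 := (pow_one _).symm
        _ ≤ O.valuation J' ^ n := pow_le_pow_right₀ h1.le hn
    rw [hnp] at h2
    exact absurd hI.2 (not_lt.2 h2)

/-- near `0` the function `b` is in the maximal ideal -/
theorem val_lt_one_of_vZero (h : J * y ^ k = u) (hu : O.valuation u = 1) {n : ℕ} (hn : 1 ≤ n)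
    (hZ : VZero O J J') : O.valuation (J' * y ^ (k * n)) < 1 := by
  have h3 := val_mul_pow (J' := J') h hu n
  have h2 : O.valuation J ≤ O.valuation J ^ n := by
    calc O.valuation J = O.valuation J ^ 1 := (pow_one _).symm
      _ ≤ O.valuation J ^ n := pow_le_pow_right₀ hZ.1.le hn
  by_contra hcon
  rw [not_lt] at hcon
  have h4 : O.valuation J ^ n ≤ O.valuation (J' * y ^ (k * n)) * O.valuation J ^ n :=
    le_mul_of_one_le_left' hcon
  rw [h3] at h4
  exact absurd (hZ.2.trans_le h2) (not_lt.2 h4)

end Fermat.Agent.S15.A.Red.Sep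

end
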