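/-
S15, block A, part A-RED, node SEP (architect helper226).  The abstract separation lemma:
places near different cusps have different reductions `S37.II.red A x`.
-/
import Fermat.Agent.S15.A.Red.Sep.Val
import Fermat.Agent.S15.A.Red.Sep.Int
import Fermat.Agent.S37.II.Defs
import Fermat.Agent.S18.Chart.Const

set_option autoImplicit false

noncomputable section

namespace Fermat.Agent.S15.A.Red.Sep

open AlgebraicCurve Fermat.Agent.S24 Fermat.Agent.S37 Fermat.Agent.S37.II Fermat.Agent.S18

variable {K F : Type*} [Field K] [Field F] [Algebra K F] [IsAlgClosed K] [FF.IsFF1 K F]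
variable {A : ValuationSubring K}

/-! ### the residue of the value and the composite valuation -/

theorem resV_ne_zero_of_val_eq_one {W : Place K F} {b : F}
    (h : (compRing A W).valuation b = 1) : resV A (val W b) ≠ 0 := by
  have hmem : b ∈ compRing A W := by
    rw [← ValuationSubring.valuation_le_one_iff, h]
  have hnon : b ∉ (compRing A W).nonunits := by
    rw [ValuationSubring.mem_nonunits_iff, h]
    exact lt_irrefl _
  have hA : val W b ∈ A := (mem_compRing.mp hmem).2
  have hnA : val W b ∉ A.nonunits := fun h' =>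
    hnon (mem_nonunits_compRing.mpr ⟨(mem_compRing.mp hmem).1, h'⟩)
  intro h0
  unfold resV at h0
  rw [dif_pos hA, IsLocalRing.residue_eq_zero_iff, ← ValuationSubring.coe_mem_nonunits_iff] at h0
  exact hnA h0

theorem resV_eq_zero_of_val_lt_one {W : Place K F} {b : F}
    (h : (compRing A W).valuation b < 1) : resV A (val W b) = 0 := by
  have hnon : b ∈ (compRing A W).nonunits := by
    rw [ValuationSubring.mem_nonunits_iff]
    exact h
  have hnA : val W b ∈ A.nonunits := (mem_nonunits_compRing.mp hnon).2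
  have hA : val W b ∈ A := ValuationSubring.nonunits_subset hnA
  unfold resV
  rw [dif_pos hA, IsLocalRing.residue_eq_zero_iff, ← ValuationSubring.coe_mem_nonunits_iff]
  exact hnA

theorem inFin_iff {x : F} {W : Place K F} :
    InFin A x W ↔ (compRing A W).valuation x ≤ 1 := by
  rw [ValuationSubring.valuation_le_one_iff]
  exact Iff.rfl

theorem polyRing_le_compRing {y : F} {W : Place K F} (hy : (compRing A W).valuation y ≤ 1) :
    polyRing A.toSubring y ≤ (compRing A W).toSubring := by
  intro z hz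
  rw [mem_polyRing_iff] at hz
  obtain ⟨p, hp, rfl⟩ := hz
  have hy' : y ∈ (compRing A W).toSubring := (ValuationSubring.valuation_le_one_iff _ _).mp hy
  rw [Polynomial.aeval_eq_sum_range]
  refine Subring.sum_mem _ fun i _ => ?_
  rw [Algebra.smul_def]
  exact Subring.mul_mem _ (algebraMap_mem_compRing (hp i)) (Subring.pow_mem _ hy' i)

theorem self_mem_polyRing (S : Subring K) (y : F) : y ∈ polyRing S y := by
  rw [mem_polyRing_iff]
  refine ⟨Polynomial.X, fun i => ?_, Polynomial.aeval_X y⟩
  rw [Polynomial.coeff_X]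
  split_ifs
  · exact S.one_mem
  · exact S.zero_mem

/-! ### coordinates near the poles of `J` -/

/-- `y` is a coordinate near the poles of `J`: `J * y ^ k = u ∈ A[y]` and `u` is a unit at all
places `W` with `1 < V_W J`, `V_W y ≤ 1`. -/
structure Coord (A : ValuationSubring K) (J y : F) (k : ℕ) (u : F) : Prop where
  eq : J * y ^ k = u
  mem : u ∈ polyRing A.toSubring y
  unit : ∀ W : Place K F, 1 < (compRing A W).valuation J → (compRing A W).valuation y ≤ 1 →
    (compRing A W).valuation u = 1

/-- it is enough to check that `u` is a unit where `y` is small -/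
theorem Coord.of_lt {J y u : F} {k : ℕ} (eq : J * y ^ k = u) (mem : u ∈ polyRing A.toSubring y)
    (unit : ∀ W : Place K F, (compRing A W).valuation y < 1 → (compRing A W).valuation u = 1) :
    Coord A J y k u := by
  refine ⟨eq, mem, fun W hJ hy => unit W (lt_of_le_of_ne hy fun h1 => ?_)⟩
  have hu : (compRing A W).valuation u ≤ 1 :=
    (ValuationSubring.valuation_le_one_iff _ _).mpr (polyRing_le_compRing hy mem)
  rw [← eq, map_mul, map_pow, h1, one_pow, mul_one] at hu
  exact absurd hJ (not_lt.mpr hu)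

variable {J J' : F} {n : ℕ} {c : ℕ → ℕ → ℤ}

/-- the separating function lies in the chart -/
theorem Coord.mem_chart {y u : F} {k : ℕ} (h : Coord A J y k u) (hn : 1 ≤ n)
    (hE : J ^ (n + 1) + J' ^ (n + 1) + ∑ a ∈ Finset.range (n + 1), ∑ b ∈ Finset.range (n + 1),
      ((c a b : ℤ) : F) * J ^ a * J' ^ b = 0) : J' * y ^ (k * n) ∈ chart A.toSubring y := by
  rw [mem_chart_iff_isIntegral]
  exact isIntegral_mul_pow _ n k hn c (self_mem_polyRing _ y) h.mem h.eq hE

/-- **SEP**, abstract form. -/
theorem red_ne {x u₁ u₂ : F} {k₁ k₂ : ℕ} (hn : 1 ≤ n)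
    (hE : J ^ (n + 1) + J' ^ (n + 1) + ∑ a ∈ Finset.range (n + 1), ∑ b ∈ Finset.range (n + 1),
      ((c a b : ℤ) : F) * J ^ a * J' ^ b = 0)
    (hnp : ∀ O : ValuationSubring F, 1 < O.valuation J →
      O.valuation J' = O.valuation J ^ n ∨ O.valuation J' ^ n = O.valuation J)
    (h₁ : Coord A J x k₁ u₁) (h₂ : Coord A J x⁻¹ k₂ u₂) {W W' : Place K F}
    (hW : VInf (compRing A W) J J') (hW' : VZero (compRing A W') J J') :
    red A x W ≠ red A x W' := by
  by_cases hF : InFin A x W <;> by_cases hF' : InFin A x W'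
  · intro heq
    unfold II.red at heq
    rw [if_pos hF, if_pos hF'] at heq
    have hb := congrFun (Sum.inl.inj heq) ⟨J' * x ^ (k₁ * n), h₁.mem_chart hn hE⟩
    have e1 : (compRing A W).valuation (J' * x ^ (k₁ * n)) = 1 :=
      val_eq_one_of_vInf h₁.eq (h₁.unit W hW.1 (inFin_iff.mp hF)) hn (hnp _ hW.1) hW
    have e2 : (compRing A W').valuation (J' * x ^ (k₁ * n)) < 1 :=
      val_lt_one_of_vZero h₁.eq (h₁.unit W' hW'.1 (inFin_iff.mp hF')) hn hW'
    exact resV_ne_zero_of_val_eq_one e1 (hb.trans (resV_eq_zero_of_val_lt_one e2))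
  · intro heq
    unfold II.red at heq
    rw [if_pos hF, if_neg hF'] at heq
    exact Sum.inl_ne_inr heq
  · intro heq
    unfold II.red at heq
    rw [if_neg hF, if_pos hF'] at heq
    exact Sum.inr_ne_inl heq
  · intro heq
    unfold II.red at heq
    rw [if_neg hF, if_neg hF'] at heq
    have hb := congrFun (Sum.inr.inj heq) ⟨J' * x⁻¹ ^ (k₂ * n), h₂.mem_chart hn hE⟩
    have key : ∀ {W₀ : Place K F}, ¬ InFin A x W₀ → (compRing A W₀).valuation x⁻¹ ≤ 1 := by
      intro W₀ h0
      rw [inFin_iff, not_le] at h0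
      rw [map_inv₀]
      exact inv_le_one_of_one_le₀ h0.le
    have e1 : (compRing A W).valuation (J' * x⁻¹ ^ (k₂ * n)) = 1 :=
      val_eq_one_of_vInf h₂.eq (h₂.unit W hW.1 (key hF)) hn (hnp _ hW.1) hW
    have e2 : (compRing A W').valuation (J' * x⁻¹ ^ (k₂ * n)) < 1 :=
      val_lt_one_of_vZero h₂.eq (h₂.unit W' hW'.1 (key hF')) hn hW'
    exact resV_ne_zero_of_val_eq_one e1 (hb.trans (resV_eq_zero_of_val_lt_one e2))

end Fermat.Agent.S15.A.Red.Sep

end
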