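/-
S15, block A, part A-RED, node SEP (architect helper226).  The three coordinates `j` (`ℓ ≥ 5`),
`h₂` (`ℓ = 3`), `h₃` (`ℓ = 2`) are coordinates near the poles of `j` in the sense of `Sep.Coord`.
-/
import Fermat.Agent.S15.A.Red.Sep.Abs
import Fermat.Agent.Lib.Hauptmodul.Bar

set_option autoImplicit false

noncomputable section

namespace Fermat.Agent.S15.A.Red.Sep

open AlgebraicCurve ModularCurve Fermat.Agent.S24 Fermat.Agent.S37 Fermat.Agent.S37.II
  Fermat.Agent.S18 Fermat.Agent.Lib.Hauptmodul

section General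

variable {K F : Type*} [Field K] [Field F] [Algebra K F] [IsAlgClosed K] [FF.IsFF1 K F]
variable {A : ValuationSubring K}

/-- the composite valuation ring has the same residue characteristic as `A` -/
theorem natCast_mem_nonunits_compRing {ℓ : ℕ} (hA : (ℓ : K) ∈ A.nonunits) (W : Place K F) :
    (ℓ : F) ∈ (compRing A W).nonunits := by
  rw [← map_natCast (algebraMap K F) ℓ, mem_nonunits_compRing]
  exact ⟨ord_algebraMap_nonneg _, by rw [val_algebraMap]; exact hA⟩

theorem natCast_mem_polyRing (S : Subring K) (y : F) (n : ℕ) : (n : F) ∈ polyRing S y := by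
  exact natCast_mem _ n

private theorem Coord_one_add_mem (S : Subring K) (y : F) (n : ℕ) :
    1 + (n : F) * y ∈ polyRing S y :=
  add_mem (one_mem _) (mul_mem (natCast_mem_polyRing S y n) (self_mem_polyRing S y))

private theorem Coord_add_mem (S : Subring K) (y : F) (n : ℕ) : (n : F) + y ∈ polyRing S y :=
  add_mem (natCast_mem_polyRing S y n) (self_mem_polyRing S y)

private theorem Coord_val_one_add {O : ValuationSubring F} (n : ℕ) {y : F}
    (hy : O.valuation y < 1) : O.valuation (1 + (n : F) * y) = 1 := by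
  apply val_add_eq_one (map_one _)
  rw [map_mul]
  have h1 : O.valuation (n : F) ≤ 1 := by
    have := val_intCast_le_one O (n : ℤ)
    rwa [Int.cast_natCast] at this
  exact lt_of_le_of_lt (mul_le_of_le_one_left' h1) hy

private theorem Coord_val_add {O : ValuationSubring F} {ℓ n : ℕ} (hO : (ℓ : F) ∈ O.nonunits)
    (hcop : Nat.Coprime n ℓ) {y : F} (hy : O.valuation y < 1) :
    O.valuation ((n : F) + y) = 1 :=
  val_add_eq_one (val_natCast_eq_one O hO hcop) hy

/-- `x = J`, finite chart: no place with `1 < V J` -/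
theorem coord_self (J : F) : Coord A J J 0 J :=
  ⟨by rw [pow_zero, mul_one], self_mem_polyRing _ _, fun _ h1 h2 => absurd h2 (not_le.2 h1)⟩

/-- `x = J`, chart at infinity -/
theorem coord_inv {J : F} (hJ : J ≠ 0) : Coord A J J⁻¹ 1 1 :=
  ⟨by rw [pow_one, mul_inv_cancel₀ hJ], one_mem _, fun _ _ _ => map_one _⟩

/-- `J h = (1 + 256 h)^3`, finite chart -/
theorem coord_two {J h : F} (e : J * h = (1 + 256 * h) ^ 3) :
    Coord A J h 1 ((1 + 256 * h) ^ 3) := by
  have h256 : (256 : F) = ((256 : ℕ) : F) := by norm_num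
  refine Coord.of_lt (by rw [pow_one, e]) ?_ fun W hW => ?_
  · rw [h256]
    exact pow_mem (Coord_one_add_mem _ _ _) 3
  · rw [h256, map_pow, Coord_val_one_add _ hW, one_pow]

/-- `J h = (1 + 256 h)^3`, chart at infinity, residue characteristic `3` -/
theorem coord_two_inv (hA : ((3 : ℕ) : K) ∈ A.nonunits) {J h : F}
    (e : J * h = (1 + 256 * h) ^ 3) : Coord A J h⁻¹ 2 ((256 + h⁻¹) ^ 3) := by
  have h256 : (256 : F) = ((256 : ℕ) : F) := by norm_num
  have hh : h ≠ 0 := by
    rintro rfl
    simp at e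
  refine Coord.of_lt ?_ ?_ fun W hW => ?_
  · field_simp
    linear_combination e
  · rw [h256]
    exact pow_mem (Coord_add_mem _ _ _) 3
  · rw [h256, map_pow,
      Coord_val_add (natCast_mem_nonunits_compRing hA W) (by norm_num : Nat.Coprime 256 3) hW,
      one_pow]

/-- `J h = (1 + 27 h) (1 + 243 h)^3`, finite chart -/
theorem coord_three {J h : F} (e : J * h = (1 + 27 * h) * (1 + 243 * h) ^ 3) :
    Coord A J h 1 ((1 + 27 * h) * (1 + 243 * h) ^ 3) := by
  have h27 : (27 : F) = ((27 : ℕ) : F) := by norm_num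
  have h243 : (243 : F) = ((243 : ℕ) : F) := by norm_num
  refine Coord.of_lt (by rw [pow_one, e]) ?_ fun W hW => ?_
  · rw [h27, h243]
    exact mul_mem (Coord_one_add_mem _ _ _) (pow_mem (Coord_one_add_mem _ _ _) 3)
  · rw [h27, h243, map_mul, map_pow, Coord_val_one_add _ hW, Coord_val_one_add _ hW, one_pow,
      one_mul]

/-- `J h = (1 + 27 h) (1 + 243 h)^3`, chart at infinity, residue characteristic `2` -/
theorem coord_three_inv (hA : ((2 : ℕ) : K) ∈ A.nonunits) {J h : F}
    (e : J * h = (1 + 27 * h) * (1 + 243 * h) ^ 3) :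
    Coord A J h⁻¹ 3 ((27 + h⁻¹) * (243 + h⁻¹) ^ 3) := by
  have h27 : (27 : F) = ((27 : ℕ) : F) := by norm_num
  have h243 : (243 : F) = ((243 : ℕ) : F) := by norm_num
  have hh : h ≠ 0 := by
    rintro rfl
    simp at e
  refine Coord.of_lt ?_ ?_ fun W hW => ?_
  · field_simp
    linear_combination e
  · rw [h27, h243]
    exact mul_mem (Coord_add_mem _ _ _) (pow_mem (Coord_add_mem _ _ _) 3)
  · rw [h27, h243, map_mul, map_pow,
      Coord_val_add (natCast_mem_nonunits_compRing hA W) (by norm_num : Nat.Coprime 27 2) hW,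
      Coord_val_add (natCast_mem_nonunits_compRing hA W) (by norm_num : Nat.Coprime 243 2) hW,
      one_pow, one_mul]

end General

end Fermat.Agent.S15.A.Red.Sep

end
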