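/-
S15, block A, part A-RED, node SEP (architect helper226).  The modular equation and its Newton
polygon for `(j, j_N)` at level `M` (`N ∣ M`); SEP at level `M` from two coordinates.
-/
import Fermat.Agent.S15.A.Red.Sep.Abs
import Fermat.Agent.S15.A.Red.Defs
import Fermat.Agent.S15.A.Red.Dich
import Fermat.Agent.Lib.ModEq.Field

set_option autoImplicit false

noncomputable section

namespace Fermat.Agent.S15.A.Red.Sep

open AlgebraicCurve ModularCurve Fermat.Agent.S24 Fermat.Agent.S37 Fermat.Agent.S37.II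
  Fermat.Agent.S18 Fermat.Agent.Lib.ModEq

variable {M N : ℕ} [NeZero M] [NeZero N] {A : ValuationSubring Kbar}

omit [NeZero M] in
/-- the modular equation for `(j, j_N)` at level `M` -/
theorem modEq_level (hN : N.Prime) (hNM : N ∣ M) :
    jF M ^ (N + 1) + JF M N hNM ^ (N + 1) +
      ∑ a ∈ Finset.range (N + 1), ∑ b ∈ Finset.range (N + 1),
        ((cPhi N a b : ℤ) : FN M) * jF M ^ a * JF M N hNM ^ b = 0 := by
  have h := modEq_JK Kbar N hN M 1 (one_dvd M) (by rwa [one_mul])
  have e : Fermat.Agent.S36.Mod.JK Kbar M (1 * N) (by rwa [one_mul]) = JF M N hNM := by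
    apply Subtype.ext
    show Fermat.Agent.S36.Mod.Js Kbar (1 * N) = Jser N
    simp only [one_mul]
    rfl
  rw [e] at h
  exact h

/-- the Newton polygon for `(j, j_N)` at level `M` -/
theorem np_level (hN : N.Prime) (hNM : N ∣ M) (O : ValuationSubring (FN M))
    (h : 1 < O.valuation (jF M)) :
    O.valuation (JF M N hNM) = O.valuation (jF M) ^ N ∨
      O.valuation (JF M N hNM) ^ N = O.valuation (jF M) :=
  (dich O hN.two_le (cPhi_top N hN) (modEq_level hN hNM) h).2

theorem sepAt_of_coord (hN : N.Prime) (hNM : N ∣ M) {x u₁ u₂ : FN M} {k₁ k₂ : ℕ}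
    (h₁ : Coord A (jF M) x k₁ u₁) (h₂ : Coord A (jF M) x⁻¹ k₂ u₂) : SepAt M N hNM A x :=
  fun _ _ hW hW' => red_ne hN.one_lt.le (modEq_level hN hNM) (np_level hN hNM) h₁ h₂ hW hW'

end Fermat.Agent.S15.A.Red.Sep

end
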